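import Fermat.Agent.S52.Defs

set_option autoImplicit false

namespace Fermat.Agent.S52.ALG.KfSpec

open Fermat.Agent.S52

variable {R : Type*} [CommRing R]

set_option maxHeartbeats 4000000 in
theorem kf_spec_aux (u1 u2 s : R) :
    kf (u1 + s * kw1 u1 u2) (u2 + s * kw2 u1 u2)
      = kf u1 u2 * kPhi (kH (u1^5) (u2^5)) (kT (u1^5) (u2^5)) s := by
  simp only [kf, kw1, kw2, kPhi, kH, kT]
  ring

end Fermat.Agent.S52.ALG.KfSpec
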