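import Fermat.Agent.S52.Defs

set_option autoImplicit false

namespace Fermat.Agent.S52.ALG.Klein

open Fermat.Agent.S52

variable {R : Type*} [CommRing R]

theorem klein_rel_aux (u1 u2 : R) :
    kT (u1^5) (u2^5) ^ 2 + kH (u1^5) (u2^5) ^ 3 = 1728 * kf u1 u2 ^ 5 := by
  simp only [kT, kH, kf]
  ring

/-- Euler's relation: `det (u, w(u)) = -12 f(u)`. -/
theorem det_kw (u1 u2 : R) : u1 * kw2 u1 u2 - u2 * kw1 u1 u2 = -12 * kf u1 u2 := by
  simp only [kw1, kw2, kf]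
  ring

end Fermat.Agent.S52.ALG.Klein
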