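import Mathlib
import Fermat.Agent.S52.Defs

/-! # S52 / ALG: Klein parametrisation (P3), `exists_klein_param` (helper1572)

For `K` algebraically closed of characteristic not 2, 3, 5 and `H0^3 + T0^2 ≠ 0` there are `u1 u2`
with `kH (u1^5) (u2^5) = H0`, `kT (u1^5) (u2^5) = T0`.  Proof: `(p, q) = (z t, t)`, `z` a root of
`kH(z,1)^3 T0^2 - kT(z,1)^2 H0^3` (degree 12, leading coefficient `-(T0^2 + H0^3)`), `t` a suitable
root; `kH(z,1)`, `kT(z,1)` have no common zero by the Bezout identity `bezout`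
(`U kH + V kT = 2^4 3^2 5^10`). -/

set_option autoImplicit false

namespace Fermat.Agent.S52.ALG.KleinParam

open Polynomial

variable {K : Type*} [Field K]

lemma bezout (z : K) :
    (-950431323 - 20237705983 * z + 103588896 * z ^ 2 - 20237108822 * z ^ 3 + 1055557719 * z ^ 4
        + 2022161 * z ^ 5) * kH z 1
      + (455818677 + 1001301767 * z - 461063031 * z ^ 2 + 2022161 * z ^ 3) * kT z 1
      = 1406250000 := by
  simp only [kH, kT]; ring

lemma kH_smul (z t : K) : kH (z * t) t = t ^ 4 * kH z 1 := by simp only [kH]; ring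

lemma kT_smul (z t : K) : kT (z * t) t = t ^ 6 * kT z 1 := by simp only [kT]; ring

/-- the polynomial `kH z 1` -/
noncomputable def hp (K : Type*) [Field K] : K[X] := -X ^ 4 + 228 * X ^ 3 - 494 * X ^ 2 - 228 * X - 1

/-- the polynomial `kT z 1` -/
noncomputable def tp (K : Type*) [Field K] : K[X] :=
  X ^ 6 + 522 * X ^ 5 - 10005 * X ^ 4 - 10005 * X ^ 2 - 522 * X + 1

lemma eval_hp (z : K) : (hp K).eval z = kH z 1 := by
  simp only [hp, kH, eval_sub, eval_add, eval_mul, eval_pow, eval_X, eval_neg, eval_one,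
    eval_ofNat]
  ring

lemma eval_tp (z : K) : (tp K).eval z = kT z 1 := by
  simp only [tp, kT, eval_sub, eval_add, eval_mul, eval_pow, eval_X, eval_one, eval_ofNat]
  ring

lemma natDegree_G (H0 T0 : K) (h : H0 ^ 3 + T0 ^ 2 ≠ 0) :
    (C (T0 ^ 2) * hp K ^ 3 - C (H0 ^ 3) * tp K ^ 2).natDegree = 12 := by
  unfold hp tp
  compute_degree!
  intro h'
  apply h
  linear_combination -h'

/-- Surjectivity of `(p, q) ↦ (kH p q, kT p q)` away from the discriminant locus. -/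
theorem exists_pq [IsAlgClosed K] (h2 : (2 : K) ≠ 0) (h3 : (3 : K) ≠ 0) (h5 : (5 : K) ≠ 0)
    (H0 T0 : K) (h : H0 ^ 3 + T0 ^ 2 ≠ 0) : ∃ p q : K, kH p q = H0 ∧ kT p q = T0 := by
  have hN : (1406250000 : K) ≠ 0 := by
    have e : (1406250000 : K) = 2 ^ 4 * 3 ^ 2 * 5 ^ 10 := by norm_num
    rw [e]
    exact mul_ne_zero (mul_ne_zero (pow_ne_zero _ h2) (pow_ne_zero _ h3)) (pow_ne_zero _ h5)
  -- a root of `h(z)^3 T0^2 - τ(z)^2 H0^3`
  obtain ⟨z, hz⟩ := IsAlgClosed.exists_root (C (T0 ^ 2) * hp K ^ 3 - C (H0 ^ 3) * tp K ^ 2)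
    (by
      rw [degree_eq_natDegree, natDegree_G H0 T0 h]
      · norm_num
      · intro h0
        have := natDegree_G H0 T0 h
        rw [h0, natDegree_zero] at this
        norm_num at this)
  have hz' : T0 ^ 2 * kH z 1 ^ 3 = H0 ^ 3 * kT z 1 ^ 2 := by
    have := hz
    rw [IsRoot, eval_sub, eval_mul, eval_mul, eval_C, eval_C, eval_pow, eval_pow, eval_hp,
      eval_tp] at this
    linear_combination this
  have hbez := bezout z
  by_cases hH : H0 = 0
  · -- `H0 = 0`, so `T0 ≠ 0`, `kH z 1 = 0`, `kT z 1 ≠ 0`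
    have hT : T0 ≠ 0 := by
      rintro rfl
      apply h
      rw [hH]; ring
    have hh : kH z 1 = 0 := by
      rw [hH] at hz'
      have h1 : T0 ^ 2 * kH z 1 ^ 3 = 0 := by rw [hz']; ring
      have h2 := (mul_eq_zero.mp h1).resolve_left (pow_ne_zero 2 hT)
      exact pow_eq_zero_iff (by norm_num) |>.mp h2
    have ht : kT z 1 ≠ 0 := by
      intro ht
      rw [hh, ht, mul_zero, mul_zero, add_zero] at hbez
      exact hN hbez.symm
    obtain ⟨t, ht6⟩ := IsAlgClosed.exists_pow_nat_eq (T0 / kT z 1) (n := 6) (by norm_num)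
    refine ⟨z * t, t, ?_, ?_⟩
    · rw [kH_smul, hh, hH, mul_zero]
    · rw [kT_smul, ht6, div_mul_cancel₀ _ ht]
  by_cases hT : T0 = 0
  · -- `T0 = 0`, `H0 ≠ 0`, `kT z 1 = 0`, `kH z 1 ≠ 0`
    have ht : kT z 1 = 0 := by
      rw [hT] at hz'
      have h1 : H0 ^ 3 * kT z 1 ^ 2 = 0 := by rw [← hz']; ring
      have h2 := (mul_eq_zero.mp h1).resolve_left (pow_ne_zero 3 hH)
      exact pow_eq_zero_iff (by norm_num) |>.mp h2
    have hh : kH z 1 ≠ 0 := by
      intro hh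
      rw [hh, ht, mul_zero, mul_zero, add_zero] at hbez
      exact hN hbez.symm
    obtain ⟨t, ht4⟩ := IsAlgClosed.exists_pow_nat_eq (H0 / kH z 1) (n := 4) (by norm_num)
    refine ⟨z * t, t, ?_, ?_⟩
    · rw [kH_smul, ht4, div_mul_cancel₀ _ hh]
    · rw [kT_smul, ht, hT, mul_zero]
  · -- generic case
    have hh : kH z 1 ≠ 0 := by
      intro hh
      have h1 : H0 ^ 3 * kT z 1 ^ 2 = 0 := by rw [← hz', hh]; ring
      have h2 := (mul_eq_zero.mp h1).resolve_left (pow_ne_zero 3 hH)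
      have ht : kT z 1 = 0 := pow_eq_zero_iff (by norm_num) |>.mp h2
      rw [hh, ht, mul_zero, mul_zero, add_zero] at hbez
      exact hN hbez.symm
    have ht : kT z 1 ≠ 0 := by
      intro ht
      have h1 : T0 ^ 2 * kH z 1 ^ 3 = 0 := by rw [hz', ht]; ring
      have h2 := (mul_eq_zero.mp h1).resolve_left (pow_ne_zero 2 hT)
      exact hh (pow_eq_zero_iff (by norm_num) |>.mp h2)
    obtain ⟨t, ht2⟩ := IsAlgClosed.exists_pow_nat_eq (T0 * kH z 1 / (H0 * kT z 1)) (n := 2)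
      (by norm_num)
    have hden : H0 * kT z 1 ≠ 0 := mul_ne_zero hH ht
    have e4 : t ^ 4 = H0 / kH z 1 := by
      have : t ^ 4 = (t ^ 2) ^ 2 := by ring
      rw [this, ht2]
      field_simp
      linear_combination hz'
    have e6 : t ^ 6 = T0 / kT z 1 := by
      have : t ^ 6 = (t ^ 2) ^ 3 := by ring
      rw [this, ht2]
      field_simp
      linear_combination hz'
    refine ⟨z * t, t, ?_, ?_⟩
    · rw [kH_smul, e4, div_mul_cancel₀ _ hh]
    · rw [kT_smul, e6, div_mul_cancel₀ _ ht]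

/-- (P3) Klein parametrisation: every `(H0, T0)` with `H0^3 + T0^2 ≠ 0` is `(kH, kT)` of some
`(u1^5, u2^5)`. -/
theorem exists_klein_param [IsAlgClosed K] (h2 : (2 : K) ≠ 0) (h3 : (3 : K) ≠ 0)
    (h5 : (5 : K) ≠ 0) (H0 T0 : K) (h : H0 ^ 3 + T0 ^ 2 ≠ 0) :
    ∃ u1 u2 : K, kH (u1 ^ 5) (u2 ^ 5) = H0 ∧ kT (u1 ^ 5) (u2 ^ 5) = T0 := by
  obtain ⟨p, q, hH, hT⟩ := exists_pq h2 h3 h5 H0 T0 h
  obtain ⟨u1, hu1⟩ := IsAlgClosed.exists_pow_nat_eq p (n := 5) (by norm_num)
  obtain ⟨u2, hu2⟩ := IsAlgClosed.exists_pow_nat_eq q (n := 5) (by norm_num)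
  exact ⟨u1, u2, by rw [hu1, hu2]; exact hH, by rw [hu1, hu2]; exact hT⟩

end Fermat.Agent.S52.ALG.KleinParam
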