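import Fermat.Agent.S52.Defs

set_option autoImplicit false

namespace Fermat.Agent.S52.ALG.RsDisc

open Fermat.Agent.S52

variable {R : Type*} [CommRing R]

set_option maxHeartbeats 4000000 in
theorem rs_disc_aux (H T s : R) :
    rsA H T s ^ 3 + rsB H T s ^ 2 = (H ^ 3 + T ^ 2) * kPhi H T s ^ 5 := by
  simp only [rsA, rsB, rsA1, rsB1, kPhi, rsAc1, rsAc2, rsAc3, rsAc4, rsAc5, rsAc6, rsAc7, rsAc8,
    rsAc9, rsAc10, rsAc11, rsAc12, rsAc13, rsAc14, rsAc15, rsAc16, rsAc17, rsAc18, rsAc19, rsAc20,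
    rsBc1, rsBc2, rsBc3, rsBc4, rsBc5, rsBc6, rsBc7, rsBc8, rsBc9, rsBc10, rsBc11, rsBc12, rsBc13,
    rsBc14, rsBc15, rsBc16, rsBc17, rsBc18, rsBc19, rsBc20, rsBc21, rsBc22, rsBc23, rsBc24, rsBc25,
    rsBc26, rsBc27, rsBc28, rsBc29, rsBc30]
  ring

end Fermat.Agent.S52.ALG.RsDisc
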