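import Fermat.Agent.S52.Basic
import Fermat.Agent.S52.ALG.RsDisc

set_option autoImplicit false

open WeierstrassCurve

namespace Fermat.Agent.S52.ALG.Model

open Fermat.Agent.S52

theorem c₄_eq (W : WeierstrassCurve ℤ) (m : ℤ) :
    (switchModel W m).c₄ = -rsA (-W.c₄) (-W.c₆) (10368 * m) := by
  simp only [switchModel, WeierstrassCurve.c₄, WeierstrassCurve.b₂, WeierstrassCurve.b₄, rsA]
  ring

theorem c₆_eq (W : WeierstrassCurve ℤ) (m : ℤ) :
    (switchModel W m).c₆ = -rsB (-W.c₄) (-W.c₆) (10368 * m) := by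
  simp only [switchModel, WeierstrassCurve.c₆, WeierstrassCurve.b₂, WeierstrassCurve.b₄,
    WeierstrassCurve.b₆, rsB]
  ring

theorem Δ_eq (W : WeierstrassCurve ℤ) (m : ℤ) :
    (switchModel W m).Δ = W.Δ * kPhi (-W.c₄) (-W.c₆) (10368 * m) ^ 5 := by
  have h1 := (switchModel W m).c_relation
  have h2 := W.c_relation
  rw [c₄_eq, c₆_eq] at h1
  have h3 := RsDisc.rs_disc_aux (-W.c₄) (-W.c₆) (10368 * m)
  have h4 : (1728 : ℤ) * (switchModel W m).Δ
      = 1728 * (W.Δ * kPhi (-W.c₄) (-W.c₆) (10368 * m) ^ 5) := by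
    linear_combination h1 - h3 - kPhi (-W.c₄) (-W.c₆) (10368 * m) ^ 5 * h2
  exact mul_left_cancel₀ (by norm_num) h4

theorem map_eq (W : WeierstrassCurve ℤ) (m : ℤ) (n : ℕ) (hn : (n : ℤ) ∣ 6 * m) :
    (switchModel W m).map (Int.castRingHom (ZMod n)) = W.map (Int.castRingHom (ZMod n)) := by
  have h6 : ((6 * m : ℤ) : ZMod n) = 0 := (ZMod.intCast_zmod_eq_zero_iff_dvd _ _).mpr hn
  have h6' : (6 : ZMod n) * (m : ZMod n) = 0 := by exact_mod_cast h6
  have e4 : (216 : ZMod n) * (m : ZMod n) = 0 := by linear_combination 36 * h6'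
  ext
  · rfl
  · rfl
  · rfl
  · simp only [switchModel, WeierstrassCurve.map, Int.coe_castRingHom]
    generalize rsA1 (-W.c₄) (-W.c₆) (10368 * m) = a
    push_cast
    linear_combination (a : ZMod n) * e4
  · simp only [switchModel, WeierstrassCurve.map, Int.coe_castRingHom]
    generalize rsA1 (-W.c₄) (-W.c₆) (10368 * m) = a
    generalize rsB1 (-W.c₄) (-W.c₆) (10368 * m) = b
    push_cast
    linear_combination (3 * (W.b₂ : ZMod n) * (a : ZMod n) + 2 * (b : ZMod n)) * h6'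

/-- `kPhi ≡ 1 (mod s)`. -/
theorem kPhi_sub_one (H T s : ℤ) : s ∣ kPhi H T s - 1 := by
  refine ⟨66 * s * H - 440 * s^2 * T - 1485 * s^3 * H^2 + 3168 * s^4 * H * T - 10560 * s^5 * T^2
        - 5940 * s^5 * H^3 - 4752 * s^6 * H^2 * T - 63360 * s^7 * H * T^2 - 66825 * s^7 * H^4
        + 140800 * s^8 * T^3 + 142560 * s^8 * H^3 * T + 133056 * s^9 * H^2 * T^2 + 133650 * s^9 * H^5
        - 61440 * s^10 * H * T^3 - 61560 * s^10 * H^4 * T + 102400 * s^11 * T^4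
        + 193536 * s^11 * H^3 * T^2 + 91125 * s^11 * H^6, ?_⟩
  simp only [kPhi]
  ring

theorem kPhi_ne_zero (H T s : ℤ) (hs : 2 ≤ |s|) : kPhi H T s ≠ 0 := by
  intro h0
  have h := kPhi_sub_one H T s
  rw [h0, zero_sub] at h
  have h1 : s ∣ 1 := (dvd_neg.mp h)
  have h2 : |s| = 1 := by
    have := Int.isUnit_iff_abs_eq.mp (isUnit_of_dvd_one h1)
    exact this
  omega

theorem Δ_ne_zero (W : WeierstrassCurve ℤ) (hΔ : W.Δ ≠ 0) (m : ℤ) (hm : m ≠ 0) :
    (switchModel W m).Δ ≠ 0 := by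
  rw [Δ_eq]
  refine mul_ne_zero hΔ (pow_ne_zero _ (kPhi_ne_zero _ _ _ ?_))
  have h1 : 1 ≤ |m| := Int.one_le_abs hm
  rw [abs_mul]
  have : |(10368 : ℤ)| = 10368 := by norm_num
  rw [this]
  omega

end Fermat.Agent.S52.ALG.Model
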