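import Mathlib.Algebra.MvPolynomial.CommRing
import Mathlib.Algebra.MvPolynomial.Eval
import Mathlib.RingTheory.Polynomial.Basic
import Mathlib.Tactic
import Fermat.Agent.S52.Defs
import Fermat.Agent.S52.ALG.Klein
import Fermat.Agent.S52.ALG.KfSpec
import Fermat.Agent.S52.ALG.RsDisc

/-!
# `rsB_spec` by the domain trick

`kT (v_s)^2 = rsB^2` follows from `klein_rel`, `kf_spec`, `rs_disc` and `rsA_spec`; in the domain
`ℤ[u1, u2, s]` this gives `kT (v_s) = ± rsB`, the sign is fixed at `(u1, u2, s) = (1, 0, 0)`, and the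
identity is transported to any commutative ring by evaluation.
-/

set_option autoImplicit false

namespace Fermat.Agent.S52.ALG.RsB

open Fermat.Agent.S52

section maps

variable {R S : Type*} [CommRing R] [CommRing S] (f : R →+* S)

theorem map_kH (p q : R) : f (kH p q) = kH (f p) (f q) := by
  simp only [kH, map_add, map_mul, map_sub, map_neg, map_pow, map_ofNat]

theorem map_kT (p q : R) : f (kT p q) = kT (f p) (f q) := by
  simp only [kT, map_add, map_mul, map_sub, map_neg, map_pow, map_ofNat]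

theorem map_kw1 (p q : R) : f (kw1 p q) = kw1 (f p) (f q) := by
  simp only [kw1, map_add, map_mul, map_sub, map_neg, map_pow, map_ofNat]

theorem map_kw2 (p q : R) : f (kw2 p q) = kw2 (f p) (f q) := by
  simp only [kw2, map_add, map_mul, map_sub, map_neg, map_pow, map_ofNat]

theorem map_rsB (H T s : R) : f (rsB H T s) = rsB (f H) (f T) (f s) := by
  simp only [rsB, rsB1, rsBc1, rsBc2, rsBc3, rsBc4, rsBc5, rsBc6, rsBc7, rsBc8, rsBc9, rsBc10,
    rsBc11, rsBc12, rsBc13, rsBc14, rsBc15, rsBc16, rsBc17, rsBc18, rsBc19, rsBc20, rsBc21, rsBc22,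
    rsBc23, rsBc24, rsBc25, rsBc26, rsBc27, rsBc28, rsBc29, rsBc30,
    map_add, map_mul, map_sub, map_neg, map_pow, map_ofNat]

end maps

/-- The universal polynomial ring `ℤ[u1, u2, s]`. -/
abbrev Pol : Type := MvPolynomial (Fin 3) ℤ

/-- `kT (v_s)^2 = rsB^2` in any commutative ring where `rsA_spec` holds. -/
theorem sq_eq_sq {R : Type*} [CommRing R] (u1 u2 s : R)
    (hA : kH ((u1 + s * kw1 u1 u2) ^ 5) ((u2 + s * kw2 u1 u2) ^ 5)
      = rsA (kH (u1 ^ 5) (u2 ^ 5)) (kT (u1 ^ 5) (u2 ^ 5)) s) :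
    kT ((u1 + s * kw1 u1 u2) ^ 5) ((u2 + s * kw2 u1 u2) ^ 5) ^ 2
      = rsB (kH (u1 ^ 5) (u2 ^ 5)) (kT (u1 ^ 5) (u2 ^ 5)) s ^ 2 := by
  have h1 := Klein.klein_rel_aux (u1 + s * kw1 u1 u2) (u2 + s * kw2 u1 u2)
  rw [hA, KfSpec.kf_spec_aux] at h1
  have h2 := Klein.klein_rel_aux u1 u2
  have h3 := RsDisc.rs_disc_aux (kH (u1 ^ 5) (u2 ^ 5)) (kT (u1 ^ 5) (u2 ^ 5)) s
  linear_combination h1 - h3 - kPhi (kH (u1 ^ 5) (u2 ^ 5)) (kT (u1 ^ 5) (u2 ^ 5)) s ^ 5 * h2

/-- The universal case. -/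
theorem universal
    (hA : ∀ u1 u2 s : Pol, kH ((u1 + s * kw1 u1 u2) ^ 5) ((u2 + s * kw2 u1 u2) ^ 5)
      = rsA (kH (u1 ^ 5) (u2 ^ 5)) (kT (u1 ^ 5) (u2 ^ 5)) s) :
    kT (((MvPolynomial.X 0 : Pol) + MvPolynomial.X 2 * kw1 (MvPolynomial.X 0) (MvPolynomial.X 1)) ^ 5)
        (((MvPolynomial.X 1 : Pol) + MvPolynomial.X 2 * kw2 (MvPolynomial.X 0) (MvPolynomial.X 1)) ^ 5)
      = rsB (kH ((MvPolynomial.X 0 : Pol) ^ 5) ((MvPolynomial.X 1 : Pol) ^ 5))
          (kT ((MvPolynomial.X 0 : Pol) ^ 5) ((MvPolynomial.X 1 : Pol) ^ 5)) (MvPolynomial.X 2) := by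
  have hsq := sq_eq_sq (MvPolynomial.X 0 : Pol) (MvPolynomial.X 1) (MvPolynomial.X 2) (hA _ _ _)
  rcases eq_or_eq_neg_of_sq_eq_sq _ _ hsq with h | h
  · exact h
  · exfalso
    -- evaluate at `(u1, u2, s) = (1, 0, 0)`
    have key := congrArg (MvPolynomial.eval (![1, 0, 0] : Fin 3 → ℤ)) h
    rw [map_neg, map_kT] at key
    simp only [rsB, map_add, map_mul, map_pow, MvPolynomial.eval_X, map_kT] at key
    simp only [Matrix.cons_val_zero, Matrix.cons_val_one, Matrix.cons_val_two, Matrix.head_cons,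
      Matrix.tail_cons, zero_mul, add_zero, one_pow, ne_eq, OfNat.ofNat_ne_zero, not_false_eq_true,
      zero_pow] at key
    norm_num [kT] at key

/-- `rsB_spec` over any commutative ring, given the universal case of `rsA_spec`. -/
theorem of_rsA_spec
    (hA : ∀ u1 u2 s : Pol, kH ((u1 + s * kw1 u1 u2) ^ 5) ((u2 + s * kw2 u1 u2) ^ 5)
      = rsA (kH (u1 ^ 5) (u2 ^ 5)) (kT (u1 ^ 5) (u2 ^ 5)) s)
    {R : Type*} [CommRing R] (u1 u2 s : R) :
    kT ((u1 + s * kw1 u1 u2) ^ 5) ((u2 + s * kw2 u1 u2) ^ 5)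
      = rsB (kH (u1 ^ 5) (u2 ^ 5)) (kT (u1 ^ 5) (u2 ^ 5)) s := by
  have key := congrArg (MvPolynomial.eval₂Hom (Int.castRingHom R) (![u1, u2, s] : Fin 3 → R))
    (universal hA)
  rw [map_kT, map_rsB, map_kH, map_kT] at key
  simp only [map_add, map_mul, map_pow, map_kw1, map_kw2, MvPolynomial.eval₂Hom_X',
    Matrix.cons_val_zero, Matrix.cons_val_one, Matrix.cons_val_two, Matrix.head_cons,
    Matrix.tail_cons] at key
  exact key

end Fermat.Agent.S52.ALG.RsB
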