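import Mathlib
import Fermat.Agent.S52.Defs
import Fermat.Agent.S52.ALG.KleinParam

/-! # S52 / ALG: `rs_not_both_zero` (P2a) from the RS identities (helper1572)

`rsA H0 T0 s` and `rsB H0 T0 s` do not vanish simultaneously when `H0^3 + T0^2 ≠ 0` (characteristic
not 2, 3, 5).  The identities `rsA_spec`, `rsB_spec`, `klein_rel` of the interface are taken as
explicit hypotheses (over the algebraic closure), so that this file does not depend on the files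
proving them: see `of_specs`.

Proof: over the algebraic closure write `(H0, T0) = (kH, kT)(u1^5, u2^5)` (`exists_klein_param`);
then `rsA = kH (p', q')`, `rsB = kT (p', q')` with `(p', q') = ((u1 + s w1)^5, (u2 + s w2)^5)`.
The homogeneous Bezout certificates `cert_q`, `cert_p` give `p' = q' = 0`, i.e. `u = -s w(u)`, so
`-12 kf u = det (u, w u) = 0`, hence `H0^3 + T0^2 = 1728 (kf u)^5 = 0`. -/

set_option autoImplicit false

namespace Fermat.Agent.S52.ALG.RsNBZ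

open Fermat.Agent.S52

section CommRing

variable {R : Type*} [CommRing R]

/-- homogeneous Bezout cofactor of `kH` -/
def Uh (p q : R) : R :=
  -950431323 * q ^ 5 - 20237705983 * p * q ^ 4 + 103588896 * p ^ 2 * q ^ 3
    - 20237108822 * p ^ 3 * q ^ 2 + 1055557719 * p ^ 4 * q + 2022161 * p ^ 5

/-- homogeneous Bezout cofactor of `kT` -/
def Vh (p q : R) : R :=
  455818677 * q ^ 3 + 1001301767 * p * q ^ 2 - 461063031 * p ^ 2 * q + 2022161 * p ^ 3

lemma cert_q (p q : R) : Uh p q * kH p q + Vh p q * kT p q = 1406250000 * q ^ 9 := by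
  simp only [Uh, Vh, kH, kT]; ring

lemma kH_swap (p q : R) : kH q (-p) = kH p q := by
  simp only [kH]; ring

lemma kT_swap (p q : R) : kT q (-p) = kT p q := by
  simp only [kT]; ring

lemma cert_p (p q : R) : Uh q (-p) * kH p q + Vh q (-p) * kT p q = -(1406250000 * p ^ 9) := by
  have h := cert_q q (-p)
  rw [kH_swap, kT_swap] at h
  rw [h]; ring

/-- Euler's identity for `kf` (degree 12): `det (u, w u) = -12 kf u`. -/
lemma euler (u1 u2 : R) : u1 * kw2 u1 u2 - u2 * kw1 u1 u2 = -12 * kf u1 u2 := by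
  simp only [kw1, kw2, kf]; ring

variable {S : Type*} [CommRing S] (f : R →+* S)

lemma map_rsA (H T s : R) : f (rsA H T s) = rsA (f H) (f T) (f s) := by
  simp only [rsA, rsA1, rsAc1, rsAc2, rsAc3, rsAc4, rsAc5, rsAc6, rsAc7, rsAc8, rsAc9, rsAc10,
    rsAc11, rsAc12, rsAc13, rsAc14, rsAc15, rsAc16, rsAc17, rsAc18, rsAc19, rsAc20,
    map_add, map_mul, map_sub, map_neg, map_pow, map_ofNat]

lemma map_rsB (H T s : R) : f (rsB H T s) = rsB (f H) (f T) (f s) := by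
  simp only [rsB, rsB1, rsBc1, rsBc2, rsBc3, rsBc4, rsBc5, rsBc6, rsBc7, rsBc8, rsBc9, rsBc10,
    rsBc11, rsBc12, rsBc13, rsBc14, rsBc15, rsBc16, rsBc17, rsBc18, rsBc19, rsBc20,
    rsBc21, rsBc22, rsBc23, rsBc24, rsBc25, rsBc26, rsBc27, rsBc28, rsBc29, rsBc30,
    map_add, map_mul, map_sub, map_neg, map_pow, map_ofNat]

end CommRing

section Field

variable {L : Type*} [Field L]

/-- The statement over an algebraically closed field, with the RS identities as hypotheses. -/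
theorem core [IsAlgClosed L] (h2 : (2 : L) ≠ 0) (h3 : (3 : L) ≠ 0) (h5 : (5 : L) ≠ 0)
    (hA : ∀ u1 u2 s : L, kH ((u1 + s * kw1 u1 u2) ^ 5) ((u2 + s * kw2 u1 u2) ^ 5)
      = rsA (kH (u1 ^ 5) (u2 ^ 5)) (kT (u1 ^ 5) (u2 ^ 5)) s)
    (hB : ∀ u1 u2 s : L, kT ((u1 + s * kw1 u1 u2) ^ 5) ((u2 + s * kw2 u1 u2) ^ 5)
      = rsB (kH (u1 ^ 5) (u2 ^ 5)) (kT (u1 ^ 5) (u2 ^ 5)) s)
    (hrel : ∀ u1 u2 : L, kT (u1 ^ 5) (u2 ^ 5) ^ 2 + kH (u1 ^ 5) (u2 ^ 5) ^ 3 = 1728 * kf u1 u2 ^ 5)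
    (H0 T0 s : L) (h : H0 ^ 3 + T0 ^ 2 ≠ 0) :
    ¬ (rsA H0 T0 s = 0 ∧ rsB H0 T0 s = 0) := by
  rintro ⟨hA0, hB0⟩
  have hN : (1406250000 : L) ≠ 0 := by
    have e : (1406250000 : L) = 2 ^ 4 * 3 ^ 2 * 5 ^ 10 := by norm_num
    rw [e]
    exact mul_ne_zero (mul_ne_zero (pow_ne_zero _ h2) (pow_ne_zero _ h3)) (pow_ne_zero _ h5)
  have h12 : (12 : L) ≠ 0 := by
    have e : (12 : L) = 2 ^ 2 * 3 := by norm_num
    rw [e]
    exact mul_ne_zero (pow_ne_zero _ h2) h3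
  obtain ⟨u1, u2, hH, hT⟩ := KleinParam.exists_klein_param h2 h3 h5 H0 T0 h
  rw [← hH, ← hT, ← hA] at hA0
  rw [← hH, ← hT, ← hB] at hB0
  -- both fifth powers vanish
  have hq := cert_q ((u1 + s * kw1 u1 u2) ^ 5) ((u2 + s * kw2 u1 u2) ^ 5)
  have hp := cert_p ((u1 + s * kw1 u1 u2) ^ 5) ((u2 + s * kw2 u1 u2) ^ 5)
  rw [hA0, hB0, mul_zero, mul_zero, add_zero] at hq hp
  have hq0 : u2 + s * kw2 u1 u2 = 0 := by
    have h1 : ((u2 + s * kw2 u1 u2) ^ 5) ^ 9 = 0 :=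
      (mul_eq_zero.mp hq.symm).resolve_left hN
    exact pow_eq_zero_iff (by norm_num) |>.mp (pow_eq_zero_iff (by norm_num) |>.mp h1)
  have hp0 : u1 + s * kw1 u1 u2 = 0 := by
    have h0 : (1406250000 : L) * ((u1 + s * kw1 u1 u2) ^ 5) ^ 9 = 0 :=
      neg_eq_zero.mp hp.symm
    have h1 : ((u1 + s * kw1 u1 u2) ^ 5) ^ 9 = 0 := (mul_eq_zero.mp h0).resolve_left hN
    exact pow_eq_zero_iff (by norm_num) |>.mp (pow_eq_zero_iff (by norm_num) |>.mp h1)
  -- `kf u = 0`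
  have hkf : kf u1 u2 = 0 := by
    have he := euler u1 u2
    have h0 : (12 : L) * kf u1 u2 = 0 := by
      linear_combination he - kw2 u1 u2 * hp0 + kw1 u1 u2 * hq0
    exact (mul_eq_zero.mp h0).resolve_left h12
  apply h
  have hr := hrel u1 u2
  rw [hH, hT, hkf] at hr
  linear_combination hr

/-- `rs_not_both_zero` over any field, with the RS identities over the algebraic closure as
hypotheses. -/
theorem of_specs {K : Type*} [Field K] (h2 : (2 : K) ≠ 0) (h3 : (3 : K) ≠ 0) (h5 : (5 : K) ≠ 0)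
    (hA : ∀ u1 u2 s : AlgebraicClosure K,
      kH ((u1 + s * kw1 u1 u2) ^ 5) ((u2 + s * kw2 u1 u2) ^ 5)
        = rsA (kH (u1 ^ 5) (u2 ^ 5)) (kT (u1 ^ 5) (u2 ^ 5)) s)
    (hB : ∀ u1 u2 s : AlgebraicClosure K,
      kT ((u1 + s * kw1 u1 u2) ^ 5) ((u2 + s * kw2 u1 u2) ^ 5)
        = rsB (kH (u1 ^ 5) (u2 ^ 5)) (kT (u1 ^ 5) (u2 ^ 5)) s)
    (hrel : ∀ u1 u2 : AlgebraicClosure K,
      kT (u1 ^ 5) (u2 ^ 5) ^ 2 + kH (u1 ^ 5) (u2 ^ 5) ^ 3 = 1728 * kf u1 u2 ^ 5)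
    (H0 T0 s : K) (h : H0 ^ 3 + T0 ^ 2 ≠ 0) :
    ¬ (rsA H0 T0 s = 0 ∧ rsB H0 T0 s = 0) := by
  rintro ⟨hA0, hB0⟩
  set ι := algebraMap K (AlgebraicClosure K) with hι
  have hinj : Function.Injective ι := (algebraMap K (AlgebraicClosure K)).injective
  have hne : ∀ n : ℕ, (n : K) ≠ 0 → ((n : ℕ) : AlgebraicClosure K) ≠ 0 := by
    intro n hn h0
    apply hn
    apply hinj
    rw [map_natCast, h0, map_zero]
  have h2' : (2 : AlgebraicClosure K) ≠ 0 := by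
    have := hne 2 (by exact_mod_cast h2)
    exact_mod_cast this
  have h3' : (3 : AlgebraicClosure K) ≠ 0 := by
    have := hne 3 (by exact_mod_cast h3)
    exact_mod_cast this
  have h5' : (5 : AlgebraicClosure K) ≠ 0 := by
    have := hne 5 (by exact_mod_cast h5)
    exact_mod_cast this
  have h' : ι H0 ^ 3 + ι T0 ^ 2 ≠ 0 := by
    intro h0
    apply h
    apply hinj
    rw [map_add, map_pow, map_pow, h0, map_zero]
  apply core h2' h3' h5' hA hB hrel (ι H0) (ι T0) (ι s) h'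
  refine ⟨?_, ?_⟩
  · rw [← map_rsA, hA0, map_zero]
  · rw [← map_rsB, hB0, map_zero]

end Field

end Fermat.Agent.S52.ALG.RsNBZ
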