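import Fermat.Agent.S52.ALG.Map

/-!
# S52 / ALG: the switched model is nonsingular and semistable (blueprint P2) (helper2472)

`Semistable.delta_ne_zero` and `Semistable.isSemistable` are the interface theorems
`switchModel_Δ_ne_zero` and `switchModel_isSemistable` with the other interface facts
(`switchModel_c₄`, `switchModel_c₆`, `switchModel_Δ`, `rs_not_both_zero` over `ZMod p`) as explicit
hypotheses.
-/

set_option autoImplicit false

open WeierstrassCurve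

namespace Fermat.Agent.S52.ALG.Semistable

/-- `kPhi ≡ 1` modulo `s`. -/
theorem kPhi_eq_one_add {R : Type*} [CommRing R] (H T s : R) : ∃ k : R, kPhi H T s = 1 + s * k :=
  ⟨66 * s * H - 440 * s^2 * T - 1485 * s^3 * H^2 + 3168 * s^4 * H * T - 10560 * s^5 * T^2
        - 5940 * s^5 * H^3 - 4752 * s^6 * H^2 * T - 63360 * s^7 * H * T^2 - 66825 * s^7 * H^4
        + 140800 * s^8 * T^3 + 142560 * s^8 * H^3 * T + 133056 * s^9 * H^2 * T^2 + 133650 * s^9 * H^5
        - 61440 * s^10 * H * T^3 - 61560 * s^10 * H^4 * T + 102400 * s^11 * T^4 + 193536 * s^11 * H^3 * T^2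
        + 91125 * s^11 * H^6, by unfold kPhi; ring⟩

/-- `switchModel_Δ_ne_zero` from `switchModel_Δ`. -/
theorem delta_ne_zero (W : WeierstrassCurve ℤ) (hΔ : W.Δ ≠ 0) (m : ℤ) (hm : m ≠ 0)
    (hΔ' : (switchModel W m).Δ = W.Δ * kPhi (-W.c₄) (-W.c₆) (10368 * m) ^ 5) :
    (switchModel W m).Δ ≠ 0 := by
  rw [hΔ']
  refine mul_ne_zero hΔ (pow_ne_zero 5 ?_)
  obtain ⟨k, hk⟩ := kPhi_eq_one_add (-W.c₄) (-W.c₆) (10368 * m)
  intro h0
  rw [hk] at h0
  have h1 : 10368 * (m * k) = -1 := by linarith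
  generalize m * k = t at h1
  omega

/-- `switchModel_isSemistable` from `switchModel_c₄`, `switchModel_c₆`, `switchModel_Δ` and
`rs_not_both_zero` over the prime fields. -/
theorem isSemistable (W : WeierstrassCurve ℤ) (hW : W.IsSemistableModel) (m : ℤ)
    (hm : 5 * W.Δ ∣ m)
    (hc4 : (switchModel W m).c₄ = -rsA (-W.c₄) (-W.c₆) (10368 * m))
    (hc6 : (switchModel W m).c₆ = -rsB (-W.c₄) (-W.c₆) (10368 * m))
    (hΔ' : (switchModel W m).Δ = W.Δ * kPhi (-W.c₄) (-W.c₆) (10368 * m) ^ 5)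
    (hnz : ∀ (p : ℕ) [Fact p.Prime], (2 : ZMod p) ≠ 0 → (3 : ZMod p) ≠ 0 → (5 : ZMod p) ≠ 0 →
      ∀ H0 T0 s : ZMod p, H0 ^ 3 + T0 ^ 2 ≠ 0 → ¬ (rsA H0 T0 s = 0 ∧ rsB H0 T0 s = 0)) :
    (switchModel W m).IsSemistableModel := by
  intro p hp hpΔ hpc4
  have hpZ : Prime (p : ℤ) := Nat.prime_iff_prime_int.mp hp
  by_cases hps : (p : ℤ) ∣ 10368 * m
  · -- `W' ≡ W` modulo `p`
    obtain ⟨k, hk⟩ := kPhi_eq_one_add (-W.c₄) (-W.c₆) (10368 * m)
    have h1 : (p : ℤ) ∣ W.Δ := by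
      rw [hΔ'] at hpΔ
      rcases hpZ.dvd_or_dvd hpΔ with h | h
      · exact h
      · exfalso
        have h2 := hpZ.dvd_of_dvd_pow h
        rw [hk] at h2
        have h3 : (p : ℤ) ∣ 1 := by
          have := dvd_sub h2 (Dvd.dvd.mul_right hps k)
          simpa using this
        exact hpZ.not_dvd_one h3
    apply hW p hp h1
    rw [hc4] at hpc4
    have h4 : W.c₄ = -rsA (-W.c₄) (-W.c₆) (10368 * m)
        + 10368 * m * rsA1 (-W.c₄) (-W.c₆) (10368 * m) := by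
      simp only [rsA]; ring
    rw [h4]
    exact dvd_add hpc4 (Dvd.dvd.mul_right hps _)
  · -- `p ∤ 6m`: then `p ∉ {2, 3, 5}`, `p ∤ Δ`, and `rsA = rsB = 0` in `ZMod p`
    have : Fact p.Prime := Fact.mk hp
    have hpm : ¬ (p : ℤ) ∣ m := fun h => hps (Dvd.dvd.mul_left h _)
    have hp5Δ : ¬ (p : ℤ) ∣ 5 * W.Δ := fun h => hpm (h.trans hm)
    have hpΔ0 : ¬ (p : ℤ) ∣ W.Δ := fun h => hp5Δ (Dvd.dvd.mul_left h _)
    have hp5 : ¬ (p : ℤ) ∣ 5 := fun h => hp5Δ (Dvd.dvd.mul_right h _)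
    have hp2 : ¬ (p : ℤ) ∣ 2 := fun h =>
      hps (Dvd.dvd.mul_right (h.trans (by norm_num : (2 : ℤ) ∣ 10368)) _)
    have hp3 : ¬ (p : ℤ) ∣ 3 := fun h =>
      hps (Dvd.dvd.mul_right (h.trans (by norm_num : (3 : ℤ) ∣ 10368)) _)
    have cast0 : ∀ z : ℤ, ((z : ℤ) : ZMod p) = 0 ↔ (p : ℤ) ∣ z := fun z =>
      ZMod.intCast_zmod_eq_zero_iff_dvd z p
    have z2 : (2 : ZMod p) ≠ 0 := by
      intro h; apply hp2; rw [← cast0]; exact_mod_cast h
    have z3 : (3 : ZMod p) ≠ 0 := by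
      intro h; apply hp3; rw [← cast0]; exact_mod_cast h
    have z5 : (5 : ZMod p) ≠ 0 := by
      intro h; apply hp5; rw [← cast0]; exact_mod_cast h
    have e4 : (((switchModel W m).c₄ : ℤ) : ZMod p) = 0 := (cast0 _).mpr hpc4
    have eΔ : (((switchModel W m).Δ : ℤ) : ZMod p) = 0 := (cast0 _).mpr hpΔ
    have e6 : (((switchModel W m).c₆ : ℤ) : ZMod p) = 0 := by
      have rel := (switchModel W m).c_relation
      have := congrArg (Int.cast : ℤ → ZMod p) rel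
      push_cast at this
      rw [e4, eΔ] at this
      have h6 : (((switchModel W m).c₆ : ℤ) : ZMod p) ^ 2 = 0 := by linear_combination this
      exact pow_eq_zero_iff (two_ne_zero) |>.mp h6
    refine hnz p z2 z3 z5 ((-W.c₄ : ℤ) : ZMod p) ((-W.c₆ : ℤ) : ZMod p)
      ((10368 * m : ℤ) : ZMod p) ?_ ⟨?_, ?_⟩
    · -- `H0^3 + T0^2 = -1728 Δ ≠ 0`
      intro h0
      have rel := W.c_relation
      have hcast : (((-(1728 * W.Δ) : ℤ)) : ZMod p) = 0 := by
        have : (-(1728 * W.Δ) : ℤ) = (-W.c₄) ^ 3 + (-W.c₆) ^ 2 := by rw [rel]; ring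
        rw [this]
        push_cast
        push_cast at h0
        exact h0
      rw [cast0, dvd_neg] at hcast
      rcases hpZ.dvd_or_dvd hcast with h | h
      · have h1728 : (1728 : ℤ) = 2 ^ 6 * 3 ^ 3 := by norm_num
        rw [h1728] at h
        rcases hpZ.dvd_or_dvd h with h | h
        · exact hp2 (hpZ.dvd_of_dvd_pow h)
        · exact hp3 (hpZ.dvd_of_dvd_pow h)
      · exact hpΔ0 h
    · rw [← Map.intCast_rsA]
      rw [hc4] at e4
      simpa using e4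
    · rw [← Map.intCast_rsB]
      rw [hc6] at e6
      simpa using e6

end Fermat.Agent.S52.ALG.Semistable
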