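import Fermat.Agent.S52.Basic

/-!
# S52 / ALG: the Klein / Rubin-Silverberg polynomials commute with ring homomorphisms (helper2472)

`map_rsA`, `map_rsB`, `map_rsA1`, `map_rsB1`, `map_kPhi`, `map_kH`, `map_kT`, `map_kf`, `map_kw1`,
`map_kw2` for `f : R →+* S`, plus integer-cast versions.
-/

set_option autoImplicit false

namespace Fermat.Agent.S52.ALG.Map

variable {R S : Type*} [CommRing R] [CommRing S] (f : R →+* S)

theorem map_kH (p q : R) : f (kH p q) = kH (f p) (f q) := by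
  simp only [kH, map_add, map_sub, map_mul, map_pow, map_neg, map_ofNat]

theorem map_kT (p q : R) : f (kT p q) = kT (f p) (f q) := by
  simp only [kT, map_add, map_sub, map_mul, map_pow, map_neg, map_ofNat]

theorem map_kf (u1 u2 : R) : f (kf u1 u2) = kf (f u1) (f u2) := by
  simp only [kf, map_add, map_sub, map_mul, map_pow, map_neg, map_ofNat]

theorem map_kw1 (u1 u2 : R) : f (kw1 u1 u2) = kw1 (f u1) (f u2) := by
  simp only [kw1, map_add, map_sub, map_mul, map_pow, map_neg, map_ofNat]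

theorem map_kw2 (u1 u2 : R) : f (kw2 u1 u2) = kw2 (f u1) (f u2) := by
  simp only [kw2, map_add, map_sub, map_mul, map_pow, map_neg, map_ofNat]

theorem map_rsA1 (H T s : R) : f (rsA1 H T s) = rsA1 (f H) (f T) (f s) := by
  simp only [rsA1, rsAc1, rsAc2, rsAc3, rsAc4, rsAc5, rsAc6, rsAc7, rsAc8, rsAc9, rsAc10, rsAc11, rsAc12, rsAc13, rsAc14, rsAc15, rsAc16, rsAc17, rsAc18, rsAc19, rsAc20,
    map_add, map_sub, map_mul, map_pow, map_neg, map_ofNat]

theorem map_rsB1 (H T s : R) : f (rsB1 H T s) = rsB1 (f H) (f T) (f s) := by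
  simp only [rsB1, rsBc1, rsBc2, rsBc3, rsBc4, rsBc5, rsBc6, rsBc7, rsBc8, rsBc9, rsBc10, rsBc11, rsBc12, rsBc13, rsBc14, rsBc15, rsBc16, rsBc17, rsBc18, rsBc19, rsBc20, rsBc21, rsBc22, rsBc23, rsBc24, rsBc25, rsBc26, rsBc27, rsBc28, rsBc29, rsBc30,
    map_add, map_sub, map_mul, map_pow, map_neg, map_ofNat]

theorem map_rsA (H T s : R) : f (rsA H T s) = rsA (f H) (f T) (f s) := by
  simp only [rsA, map_add, map_mul, map_rsA1]

theorem map_rsB (H T s : R) : f (rsB H T s) = rsB (f H) (f T) (f s) := by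
  simp only [rsB, map_add, map_mul, map_rsB1]

theorem map_kPhi (H T s : R) : f (kPhi H T s) = kPhi (f H) (f T) (f s) := by
  simp only [kPhi, map_add, map_sub, map_mul, map_pow, map_neg, map_ofNat, map_one]

/-! ### integer casts -/

theorem intCast_rsA (H T s : ℤ) : ((rsA H T s : ℤ) : S) = rsA (H : S) (T : S) (s : S) :=
  map_rsA (Int.castRingHom S) H T s

theorem intCast_rsB (H T s : ℤ) : ((rsB H T s : ℤ) : S) = rsB (H : S) (T : S) (s : S) :=
  map_rsB (Int.castRingHom S) H T s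

theorem intCast_rsA1 (H T s : ℤ) : ((rsA1 H T s : ℤ) : S) = rsA1 (H : S) (T : S) (s : S) :=
  map_rsA1 (Int.castRingHom S) H T s

theorem intCast_rsB1 (H T s : ℤ) : ((rsB1 H T s : ℤ) : S) = rsB1 (H : S) (T : S) (s : S) :=
  map_rsB1 (Int.castRingHom S) H T s

theorem intCast_kPhi (H T s : ℤ) : ((kPhi H T s : ℤ) : S) = kPhi (H : S) (T : S) (s : S) :=
  map_kPhi (Int.castRingHom S) H T s

end Fermat.Agent.S52.ALG.Map
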